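import Mathlib
import Fermat.Agent.CFT.LC.Cochains

/-!
# PROGRAM G (S56), block LOC-ord (helper26), file 1: the abstract dimension count

`(G, Lv)` a level group, `M` a finite-dimensional smooth `k`-representation, `N ≤ M` a subspace.

* `ZN Lv M N`  : the LC `1`-cocycles with values in `N` (a subspace of `G → M`);
* `LpN Lv M N` : their classes in `LC.H1 Lv M` (the image of `H¹(G, N) → H¹(G, M)` when `N` is
  `G`-stable);
* `finrank_LpN_add_le` : if `B0 ≤ M` is a subspace with `g • b - b ∈ N` for all `b ∈ B0`, then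
  `dim LpN + dim B0 ≤ dim ZN + dim M^G`
  (the coboundaries of the elements of `B0` are `N`-valued cocycles which die in `H¹(G, M)`, and
  `b ↦ ∂b` has kernel `B0 ∩ M^G`).

For `M = ad⁰ρbar`, `N = Hom(V/ℓ, ℓ)` (dimension `1`, `G_p` acts by the cyclotomic character, so
`dim ZN ≤ 3` by Kummer theory) and `B0` the trace-zero Borel of `ℓ` (dimension `2`) this is
`dim L_p ≤ h⁰_p + 1`.
-/

set_option autoImplicit false

open Module groupCohomology

namespace Fermat.Agent.TW.LocOrd

open Fermat.Agent.CFT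

variable {k G : Type} [Field k] [Group G] (Lv : LevelStructure G) (M : Rep.{0} k G)

/-- The LC `1`-cocycles with values in the subspace `N`, as a subspace of the function space. -/
def ZN (N : Submodule k M) : Submodule k (G → M) where
  carrier := {c | c ∈ LC.Z₁ Lv M ∧ ∀ g, c g ∈ N}
  add_mem' := fun hc hc' => ⟨(LC.Z₁ Lv M).add_mem hc.1 hc'.1, fun g => N.add_mem (hc.2 g) (hc'.2 g)⟩
  zero_mem' := ⟨(LC.Z₁ Lv M).zero_mem, fun _ => N.zero_mem⟩
  smul_mem' := fun a _ hc => ⟨(LC.Z₁ Lv M).smul_mem a hc.1, fun g => N.smul_mem a (hc.2 g)⟩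

theorem mem_ZN_iff {N : Submodule k M} {c : G → M} :
    c ∈ ZN Lv M N ↔ c ∈ LC.Z₁ Lv M ∧ ∀ g, c g ∈ N := Iff.rfl

theorem ZN_le_Z₁ (N : Submodule k M) : ZN Lv M N ≤ LC.Z₁ Lv M := fun _ hc => hc.1

/-- The class map on the `N`-valued LC cocycles. -/
def classN (N : Submodule k M) : ↥(ZN Lv M N) →ₗ[k] LC.H1 Lv M :=
  (LC.H1π Lv M).comp (Submodule.inclusion (ZN_le_Z₁ Lv M N))

theorem classN_apply (N : Submodule k M) (c : ↥(ZN Lv M N)) :
    classN Lv M N c = LC.H1π Lv M ⟨c.1, c.2.1⟩ := rfl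

/-- The classes in `LC.H1 Lv M` having a representative with values in `N`. -/
def LpN (N : Submodule k M) : Submodule k (LC.H1 Lv M) := LinearMap.range (classN Lv M N)

theorem mem_LpN_iff {N : Submodule k M} {x : LC.H1 Lv M} :
    x ∈ LpN Lv M N ↔
      ∃ (c : G → M) (hc : c ∈ LC.Z₁ Lv M), (∀ g, c g ∈ N) ∧ LC.H1π Lv M ⟨c, hc⟩ = x := by
  constructor
  · rintro ⟨c, rfl⟩
    exact ⟨c.1, c.2.1, c.2.2, rfl⟩
  · rintro ⟨c, hc, hN, rfl⟩
    exact ⟨⟨c, hc, hN⟩, rfl⟩

theorem LpN_mono {N N' : Submodule k M} (h : N ≤ N') : LpN Lv M N ≤ LpN Lv M N' := by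
  intro x hx
  rw [mem_LpN_iff] at hx ⊢
  obtain ⟨c, hc, hN, rfl⟩ := hx
  exact ⟨c, hc, fun g => h (hN g), rfl⟩

variable {Lv M}

/-- **The abstract count.** -/
theorem finrank_LpN_add_le [FiniteDimensional k M] (hM : IsSmooth Lv M) (N B0 : Submodule k M)
    [FiniteDimensional k (ZN Lv M N)]
    (hB0 : ∀ b ∈ B0, ∀ g, M.ρ g b - b ∈ N) :
    finrank k (LpN Lv M N) + finrank k B0 ≤
      finrank k (ZN Lv M N) + finrank k M.ρ.invariants := by
  -- the coboundary map on `B0`
  have hmem : ∀ b : ↥B0, ((d₀₁ M).hom.comp B0.subtype) b ∈ ZN Lv M N := fun b =>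
    ⟨LC.B₁_le_Z₁ hM ⟨(b : M), rfl⟩, fun g => hB0 b b.2 g⟩
  set δ : ↥B0 →ₗ[k] ↥(ZN Lv M N) :=
    LinearMap.codRestrict (ZN Lv M N) ((d₀₁ M).hom.comp B0.subtype) hmem with hδ
  have hδπ : LinearMap.range δ ≤ LinearMap.ker (classN Lv M N) := by
    rintro _ ⟨b, rfl⟩
    rw [LinearMap.mem_ker, classN_apply, LC.H1π_eq_zero_iff]
    exact ⟨(b : M), rfl⟩
  -- the kernel of `δ` consists of invariants
  have hker : finrank k (LinearMap.ker δ) ≤ finrank k M.ρ.invariants := by
    have hinv : ∀ b : ↥(LinearMap.ker δ),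
        (B0.subtype.comp (LinearMap.ker δ).subtype) b ∈ M.ρ.invariants := by
      intro b
      rw [Representation.mem_invariants]
      intro g
      have h1 : δ b.1 = 0 := b.2
      have h2 : ((δ b.1 : ↥(ZN Lv M N)) : G → M) g = 0 := by rw [h1]; rfl
      have h4 : M.ρ g ((b.1 : ↥B0) : M) - ((b.1 : ↥B0) : M) = 0 := h2
      exact sub_eq_zero.mp h4
    refine LinearMap.finrank_le_finrank_of_injective
      (f := LinearMap.codRestrict M.ρ.invariants
        (B0.subtype.comp (LinearMap.ker δ).subtype) hinv) ?_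
    intro b b' h
    apply Subtype.ext
    apply Subtype.ext
    have h' := congrArg Subtype.val h
    exact h'
  have h1 : finrank k (LinearMap.range (classN Lv M N)) + finrank k (LinearMap.ker (classN Lv M N))
      = finrank k (ZN Lv M N) := LinearMap.finrank_range_add_finrank_ker (classN Lv M N)
  have h2 : finrank k (LinearMap.range δ) + finrank k (LinearMap.ker δ) = finrank k B0 :=
    LinearMap.finrank_range_add_finrank_ker δ
  have h3 : finrank k (LinearMap.range δ) ≤ finrank k (LinearMap.ker (classN Lv M N)) :=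
    Submodule.finrank_mono hδπ
  have h4 : finrank k (LpN Lv M N) = finrank k (LinearMap.range (classN Lv M N)) := rfl
  omega

end Fermat.Agent.TW.LocOrd
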